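import Mathlib
import Fermat.Agent.LT.T7.B981.PairDatSpec

/-!
# Row LT, tower T7, node T7.L2.1.H2a.A.0.D.3 `B981.DownFinC981` (owner helper619, registry 2981):
# THE CUT -- Spec

OFF-MAIN.  Definitions and frozen Props only (the proved top `downFinC_of619` is in
`DownFinTop.lean`).  No hole, nothing assumed.  ADDITIVE (new names only, suffix `619`, namespace
`Fermat.Agent.LT.T7.B981.DF619`).  Vocabulary: `T7/B981/PairDatSpec.lean` (helper981, sha256
df231e98) and its imports, byte-identical copies.

    downFinC_of619 : PushCalcC619 K K' → B981.DownFinC981 K K'                  (VERBATIM)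

## The cut

The node is proved UNIFORMLY in the place `v ∈ P` (no case distinction inert / split in the
construction): `A v = pushFin981 P' A' v`, `f₀ v = Av ∘ cartan` a spherical function with the
T3 pair `(f₀ v, A v)` and `satT893 q_v Av = laurent (A v)` (closed local assets: Satake, Cartan
decomposition; helper263, helper681, helper474); the components upstairs are spherical with
`satT893 q_w (A w) = laurent (A' w)` (the same bridge for a GIVEN pair) resp. the unit.  The two
clauses of `H893.SphOut893` are then identities of Laurent polynomials:

* **`PushCalcC619 K K'`** (LEAF [M], MATHLIB ONLY + the definitions `pushFin981`, `fib981`,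
  `resDeg981`, `T3.AS.laurent`, `T3.AS.IsSymFin`): the push-forward of symmetric finitely
  supported coefficients is symmetric of finite support, and its Laurent polynomial is the
  product over the fibre of the Laurent polynomials at the `f_w`-th powers.
  Proof.  `S_w` = the support of `A' w`; the summand of `pushFin981` vanishes outside
  `Fintype.piFinset S`; `finsum_eq_sum_of_support_subset`; the support of the push-forward lies
  in the image of `Fintype.piFinset S` under `mm ↦ ∑_w f_w • mm w`; symmetry: the involution
  `mm ↦ swap ∘ mm`; the Laurent polynomial: exchange the two finite sums, `zpow_add₀` / `zpow_mul`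
  (`x, y ≠ 0`), `Finset.prod_univ_sum`.
  FALSITY CHECKS.  Empty fibre: `pushFin981 = δ_0`, both sides are `1`.  `f_w = 0`: the factor
  is `laurent (A' w) 1 1`, the constraint does not see `mm w`: consistent.

The other inputs of the top are closed and vendored: `B981.SS503.PlacesC503` (places),
`T3.H263.satakeLocC263`, the Cartan decomposition and the eigenvalue comparison of helper681.
-/

set_option autoImplicit false

open IsDedekindDomain NumberField

noncomputable section

namespace Fermat.Agent.LT.T7.B981.DF619

open Fermat.Agent.LT Fermat.Agent.LT.T7 Fermat.Agent.LT.T7.B981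

/-- **LEAF DF.1 = PUSH-CALC ([M], MATHLIB ONLY).**  See the header. -/
def PushCalcC619 (K K' : Type) [Field K] [NumberField K] [Field K'] [NumberField K']
    [Algebra K K'] : Prop :=
  ∀ (P' : Finset (HeightOneSpectrum (𝓞 K'))) (A' : HeightOneSpectrum (𝓞 K') → ℤ × ℤ → ℂ)
    (v : HeightOneSpectrum (𝓞 K)),
    (∀ w ∈ fib981 (K := K) P' v, T3.AS.IsSymFin (A' w)) →
    T3.AS.IsSymFin (pushFin981 (K := K) P' A' v) ∧
      ∀ x y : ℂ, x ≠ 0 → y ≠ 0 →
        T3.AS.laurent (pushFin981 (K := K) P' A' v) x y
          = ∏ w ∈ fib981 (K := K) P' v,
              T3.AS.laurent (A' w) (x ^ resDeg981 v w) (y ^ resDeg981 v w)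

end Fermat.Agent.LT.T7.B981.DF619

end
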