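import Mathlib
import Fermat.Agent.LT.T6.H305.Basic
import Fermat.Agent.LT.T7.B981.H503.StepSSpec

/-!
# Row LT, tower T7, node `B981.StepSC981`, leaves SS.6 `SphShiftC503` and SS.7 `UnitSphC503`
# (helper619, registry rows 2874 / 2875, OFF-MAIN)

ADDITIVE, PROVED, UNCONDITIONAL, nothing assumed.  Spec: `T7/B981/H503/StepSSpec.lean`
(helper503, sha256 b4d9e9b9), byte-identical copy; `T6/H305/Basic.lean` (helper305, master bytes).

    sphShiftC619 : SS503.SphShiftC503          (VERBATIM)
    unitSphC619  : SS503.UnitSphC503           (VERBATIM)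

Proof.  `cartan (x c^{-t}) = cartan x - (t, t)` for the scalar matrix `c` of a uniformiser (the
entries are multiplied by `c₀^{-t}`, of valuation `exp t`; the determinant by `c₀^{-2t}`), and
`Finsupp.mapDomain_apply` for the injective shift.  `InU 0 x` iff `x` is integral with unit
determinant (helper305) iff the largest valuation of an entry and the valuation of the
determinant are `1` iff `cartan x = (0, 0)`.
-/

set_option autoImplicit false
set_option linter.unusedSectionVars false

open scoped Classical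

noncomputable section

namespace Fermat.Agent.LT.T7.B981.H619

open Fermat.Agent.LT Fermat.Agent.LT.T7.H893 Fermat.Agent.LT.T7.B981.SS503

section Local

variable {k : Type} [Field k] [Valued k T6.Γ₀]

theorem entry_le_entryMax619 (x : GL (Fin 2) k) (i j : Fin 2) :
    Valued.v ((x : Matrix (Fin 2) (Fin 2) k) i j) ≤ T6.entryMax x :=
  Finset.le_sup' (fun p : Fin 2 × Fin 2 => Valued.v ((x : Matrix (Fin 2) (Fin 2) k) p.1 p.2))
    (Finset.mem_univ (i, j))

theorem exists_entry_eq_entryMax619 (x : GL (Fin 2) k) :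
    ∃ i j : Fin 2, T6.entryMax x = Valued.v ((x : Matrix (Fin 2) (Fin 2) k) i j) := by
  obtain ⟨p, -, hp⟩ := Finset.exists_mem_eq_sup' Finset.univ_nonempty
    (fun p : Fin 2 × Fin 2 => Valued.v ((x : Matrix (Fin 2) (Fin 2) k) p.1 p.2))
  exact ⟨p.1, p.2, hp⟩

theorem entryMax_le619 (x : GL (Fin 2) k) (e : T6.Γ₀)
    (h : ∀ i j : Fin 2, Valued.v ((x : Matrix (Fin 2) (Fin 2) k) i j) ≤ e) :
    T6.entryMax x ≤ e := by
  obtain ⟨i, j, hij⟩ := exists_entry_eq_entryMax619 x
  rw [hij]
  exact h i j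

theorem det_ne_zero619 (x : GL (Fin 2) k) : (x : Matrix (Fin 2) (Fin 2) k).det ≠ 0 :=
  ((Matrix.isUnit_iff_isUnit_det _).1 (Units.isUnit x)).ne_zero

theorem val_det_ne_zero619 (x : GL (Fin 2) k) :
    Valued.v (x : Matrix (Fin 2) (Fin 2) k).det ≠ 0 :=
  (Valuation.ne_zero_iff _).2 (det_ne_zero619 x)

theorem entryMax_ne_zero619 (x : GL (Fin 2) k) : T6.entryMax x ≠ 0 := by
  intro h0
  have hz : ∀ i j : Fin 2, (x : Matrix (Fin 2) (Fin 2) k) i j = 0 := by
    intro i j
    have hle := entry_le_entryMax619 x i j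
    rw [h0] at hle
    exact (Valuation.zero_iff _).1 (le_antisymm hle zero_le)
  apply det_ne_zero619 x
  rw [Matrix.det_fin_two, hz 0 0, hz 0 1, zero_mul, zero_mul, sub_zero]

/-- The largest valuation of an entry is multiplied by `e` when all entries are. -/
theorem entryMax_mul619 (x y : GL (Fin 2) k) (e : T6.Γ₀)
    (h : ∀ i j : Fin 2, Valued.v ((y : Matrix (Fin 2) (Fin 2) k) i j)
      = Valued.v ((x : Matrix (Fin 2) (Fin 2) k) i j) * e) :
    T6.entryMax y = T6.entryMax x * e := by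
  apply le_antisymm
  · apply entryMax_le619
    intro i j
    rw [h]
    exact mul_le_mul' (entry_le_entryMax619 x i j) le_rfl
  · obtain ⟨i, j, hij⟩ := exists_entry_eq_entryMax619 x
    rw [hij, ← h]
    exact entry_le_entryMax619 y i j

/-- The powers of a scalar matrix. -/
theorem scalar_zpow619 (c : GL (Fin 2) k) (c₀ : k) (hc₀ : c₀ ≠ 0)
    (hc : (c : Matrix (Fin 2) (Fin 2) k) = Matrix.diagonal (fun _ => c₀)) (t : ℤ) :
    ((c ^ t : GL (Fin 2) k) : Matrix (Fin 2) (Fin 2) k) = Matrix.diagonal (fun _ => c₀ ^ t) := by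
  have e : c = Units.map
      (Matrix.scalar (Fin 2) : k →+* Matrix (Fin 2) (Fin 2) k).toMonoidHom (Units.mk0 c₀ hc₀) := by
    apply Units.ext
    rw [hc]
    rfl
  rw [e, ← map_zpow]
  show (Matrix.scalar (Fin 2) : k →+* Matrix (Fin 2) (Fin 2) k)
    (((Units.mk0 c₀ hc₀) ^ t : kˣ) : k) = _
  rw [Units.val_zpow_eq_zpow_val]
  rfl

theorem ne_zero_of_val619 {c₀ : k} (hv : Valued.v c₀ = WithZero.exp (-1 : ℤ)) : c₀ ≠ 0 := by
  intro h0
  rw [h0, map_zero] at hv
  exact WithZero.exp_ne_zero hv.symm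

theorem val_zpow619 {c₀ : k} (hv : Valued.v c₀ = WithZero.exp (-1 : ℤ)) (t : ℤ) :
    Valued.v (c₀ ^ (-t)) = WithZero.exp t := by
  rw [map_zpow₀, hv, ← WithZero.exp_zsmul]
  simp

/-- **The Cartan invariant of a translate by a power of a scalar uniformiser.** -/
theorem cartan_mul_scalar619 (c : GL (Fin 2) k) (c₀ : k)
    (hv : Valued.v c₀ = WithZero.exp (-1 : ℤ))
    (hc : (c : Matrix (Fin 2) (Fin 2) k) = Matrix.diagonal (fun _ => c₀)) (t : ℤ)
    (x : GL (Fin 2) k) :
    T6.cartan (x * c ^ (-t)) = ((T6.cartan x).1 - t, (T6.cartan x).2 - t) := by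
  have hc₀ := ne_zero_of_val619 hv
  have hvz := val_zpow619 hv t
  have hem : T6.entryMax (x * c ^ (-t)) = T6.entryMax x * WithZero.exp t := by
    apply entryMax_mul619
    intro i j
    rw [Units.val_mul, scalar_zpow619 c c₀ hc₀ hc (-t), Matrix.mul_diagonal, map_mul, hvz]
  have hdet : Valued.v ((x * c ^ (-t) : GL (Fin 2) k) : Matrix (Fin 2) (Fin 2) k).det
      = Valued.v (x : Matrix (Fin 2) (Fin 2) k).det * WithZero.exp (t + t) := by
    rw [Units.val_mul, Matrix.det_mul, scalar_zpow619 c c₀ hc₀ hc (-t), Matrix.det_diagonal,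
      Fin.prod_univ_two, map_mul, map_mul, hvz, ← WithZero.exp_add]
  have hx0 := entryMax_ne_zero619 x
  have hd0 := val_det_ne_zero619 x
  refine Prod.ext ?_ ?_
  · show WithZero.log (T6.entryMax (x * c ^ (-t)))
        - WithZero.log
          (Valued.v ((x * c ^ (-t) : GL (Fin 2) k) : Matrix (Fin 2) (Fin 2) k).det)
      = WithZero.log (T6.entryMax x)
        - WithZero.log (Valued.v (x : Matrix (Fin 2) (Fin 2) k).det) - t
    rw [hem, hdet, WithZero.log_mul hx0 WithZero.exp_ne_zero,
      WithZero.log_mul hd0 WithZero.exp_ne_zero, WithZero.log_exp, WithZero.log_exp]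
    ring
  · show - WithZero.log (T6.entryMax (x * c ^ (-t))) = - WithZero.log (T6.entryMax x) - t
    rw [hem, WithZero.log_mul hx0 WithZero.exp_ne_zero, WithZero.log_exp]
    ring

theorem shift_injective619 (t : ℤ) :
    Function.Injective (fun lam : ℤ × ℤ => (lam.1 + t, lam.2 + t)) := by
  intro a b h
  have h1 : a.1 + t = b.1 + t := congrArg Prod.fst h
  have h2 : a.2 + t = b.2 + t := congrArg Prod.snd h
  exact Prod.ext (add_right_cancel h1) (add_right_cancel h2)

/-- `log y = 0` iff `y = 1`, for `y ≠ 0`. -/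
theorem log_eq_zero_iff619 {y : T6.Γ₀} (hy : y ≠ 0) : WithZero.log y = 0 ↔ y = 1 := by
  constructor
  · intro h
    rw [← WithZero.exp_log hy, h, WithZero.exp_zero]
  · intro h
    rw [h]
    exact WithZero.log_one

theorem val_det_le619 (x : GL (Fin 2) k) :
    Valued.v (x : Matrix (Fin 2) (Fin 2) k).det ≤ T6.entryMax x * T6.entryMax x := by
  rw [Matrix.det_fin_two]
  refine le_trans (Valuation.map_sub _ _ _) (max_le ?_ ?_)
  · rw [map_mul]
    exact mul_le_mul' (entry_le_entryMax619 x 0 0) (entry_le_entryMax619 x 1 1)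
  · rw [map_mul]
    exact mul_le_mul' (entry_le_entryMax619 x 0 1) (entry_le_entryMax619 x 1 0)

/-- `x ∈ GL₂(𝒪)` iff the Cartan invariant of `x` is `(0, 0)`. -/
theorem inU_zero_iff_cartan619 (x : GL (Fin 2) k) : T6.InU 0 x ↔ T6.cartan x = (0, 0) := by
  have hx0 := entryMax_ne_zero619 x
  have hd0 := val_det_ne_zero619 x
  rw [T6.H305.inU_zero_iff, T6.H305.inK_iff]
  constructor
  · rintro ⟨hint, hdet⟩
    have hle : T6.entryMax x ≤ 1 := entryMax_le619 x 1 hint
    have hge : (1 : T6.Γ₀) ≤ T6.entryMax x := by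
      have h := val_det_le619 x
      rw [hdet] at h
      exact le_trans h (le_trans (mul_le_mul' le_rfl hle) (mul_one _).le)
    have hem : T6.entryMax x = 1 := le_antisymm hle hge
    refine Prod.ext ?_ ?_
    · show WithZero.log (T6.entryMax x)
          - WithZero.log (Valued.v (x : Matrix (Fin 2) (Fin 2) k).det) = 0
      rw [hem, hdet, WithZero.log_one, sub_zero]
    · show - WithZero.log (T6.entryMax x) = 0
      rw [hem, WithZero.log_one, neg_zero]
  · intro h
    have h1 : WithZero.log (T6.entryMax x)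
        - WithZero.log (Valued.v (x : Matrix (Fin 2) (Fin 2) k).det) = 0 := congrArg Prod.fst h
    have h2 : - WithZero.log (T6.entryMax x) = 0 := congrArg Prod.snd h
    have h3 : WithZero.log (T6.entryMax x) = 0 := neg_eq_zero.1 h2
    rw [h3, zero_sub] at h1
    have h4 : WithZero.log (Valued.v (x : Matrix (Fin 2) (Fin 2) k).det) = 0 := neg_eq_zero.1 h1
    have hem : T6.entryMax x = 1 := (log_eq_zero_iff619 hx0).1 h3
    refine ⟨fun i j => ?_, (log_eq_zero_iff619 hd0).1 h4⟩
    rw [← hem]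
    exact entry_le_entryMax619 x i j

end Local

/-- **LEAF SS.6 = SPH-SHIFT** (`SS503.SphShiftC503`, VERBATIM). -/
theorem sphShiftC619 : SphShiftC503 := by
  intro k _ _ c c₀ hv hc t φ A hφ
  refine ⟨?_, ?_⟩
  · intro lam hlam
    have hsub : lam ∈ A.support.image (fun lam : ℤ × ℤ => (lam.1 + t, lam.2 + t)) :=
      Finsupp.mapDomain_support hlam
    obtain ⟨μ, hμ, rfl⟩ := Finset.mem_image.1 hsub
    have h := hφ.1 μ hμ
    show μ.2 + t ≤ μ.1 + t
    omega
  · intro x
    show φ (x * c ^ (-t)) = (shA503 t A) (T6.cartan x)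
    rw [hφ.2, cartan_mul_scalar619 c c₀ hv hc t x]
    have key : (shA503 t A) ((T6.cartan x).1 - t + t, (T6.cartan x).2 - t + t)
        = A ((T6.cartan x).1 - t, (T6.cartan x).2 - t) :=
      Finsupp.mapDomain_apply (shift_injective619 t) A ((T6.cartan x).1 - t, (T6.cartan x).2 - t)
    rw [sub_add_cancel, sub_add_cancel] at key
    exact key.symm

/-- **LEAF SS.7 = UNIT-SPH** (`SS503.UnitSphC503`, VERBATIM). -/
theorem unitSphC619 : UnitSphC503 := by
  intro k _ _
  refine ⟨?_, ?_⟩
  · intro lam hlam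
    have h : lam = ((0 : ℤ), (0 : ℤ)) := by
      by_contra hne
      rw [Finsupp.mem_support_iff, Finsupp.single_apply] at hlam
      by_cases e : ((0 : ℤ), (0 : ℤ)) = lam
      · exact hne e.symm
      · rw [if_neg e] at hlam
        exact hlam rfl
    rw [h]
  · intro x
    show (if T6.InU 0 x then (1 : ℂ) else 0)
      = (Finsupp.single ((0 : ℤ), (0 : ℤ)) (1 : ℂ)) (T6.cartan x)
    rw [Finsupp.single_apply]
    by_cases h : T6.InU 0 x
    · rw [if_pos h, if_pos ((inU_zero_iff_cartan619 x).1 h).symm]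
    · rw [if_neg h, if_neg]
      intro hc
      exact h ((inU_zero_iff_cartan619 x).2 hc.symm)

end Fermat.Agent.LT.T7.B981.H619

end
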