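import Mathlib
import Fermat.Agent.LT.T3.H681.SatakeBC
import Fermat.Agent.LT.T3.H263.SatakeLoc
import Fermat.Agent.LT.T7.H963.Places
import Fermat.Agent.LT.T7.B981.H619.SphShift
import Fermat.Agent.LT.T7.B981.H619.DownFinSpec

/-!
# Row LT, tower T7, node T7.L2.1.H2a.A.0.D.3 `B981.DownFinC981` (owner helper619, registry 2981):
# THE CUT -- Top (PROVED)

OFF-MAIN.  ADDITIVE (new names only, suffix `619`, namespace
`Fermat.Agent.LT.T7.B981.DF619`).  Nothing assumed: the only hypothesis of the top is the frozen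
Prop of the ONE leaf of the cut (`DownFinSpec.lean`).

    downFinC_of619 : PushCalcC619 K K' → B981.DownFinC981 K K'                  (VERBATIM)

Proof.  `A v = pushFin981 P' A' v` for every `v`, `f₀ v = 1_{U(m v)}` at `v ∈ T₀` and a Satake
pair for `A v` elsewhere (`T3.H263.satakeLocC263`).  `P ∩ T₀ = ∅` (`IsLevel797.mem_S'_g`).  Bridge
T3 → T6 for a GIVEN Satake pair `(f, A)` at a place of norm `q`: `f = F ∘ cartan` with `F`
dominant and `satT893 q F = laurent A` (`T3.H681.bc_pair_of_biinv681`,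
`T3.H681.sph_sum_eq_laurent681`).  The places over `v ∈ P` are outside `S'` (`IsL2Base.fibre`),
hence unramified (`RamIn`), and `H963.placesC963` gives the residue degrees: `ℓ` at an inert
place, `1` at a split place, where every place over `v` is a member of every enumeration.
-/

set_option autoImplicit false
set_option linter.unusedSectionVars false
set_option linter.unusedVariables false

open IsDedekindDomain NumberField
open scoped Classical

noncomputable section

namespace Fermat.Agent.LT.T7.B981.DF619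

open Fermat.Agent.LT Fermat.Agent.LT.T7 Fermat.Agent.LT.T7.B981 Fermat.Agent.LT.T7.H893
open Fermat.Agent.LT.T7.B981.SS503

/-- The norm of a finite place is at least `2`. -/
theorem one_lt_absNorm619 {K : Type} [Field K] [NumberField K] (v : HeightOneSpectrum (𝓞 K)) :
    1 < Ideal.absNorm v.asIdeal := by
  rw [Nat.one_lt_iff_ne_zero_and_ne_one]
  constructor
  · intro h
    exact v.ne_bot (Ideal.absNorm_eq_zero_iff.1 h)
  · intro h
    exact v.isPrime.ne_top (Ideal.absNorm_eq_one_iff.1 h)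

/-- `resDeg981` is the residue degree. -/
theorem resDeg_eq619 {K K' : Type} [Field K] [NumberField K] [Field K'] [NumberField K']
    [Algebra K K'] (v : HeightOneSpectrum (𝓞 K)) (w : HeightOneSpectrum (𝓞 K')) (f : ℕ)
    (h : HasResDeg K K' v w f) : resDeg981 v w = f := by
  show Nat.log (Ideal.absNorm v.asIdeal) (Ideal.absNorm w.asIdeal) = f
  rw [h.2, Nat.log_pow (one_lt_absNorm619 v)]

/-- Membership in the fibre. -/
theorem mem_fib619 {K K' : Type} [Field K] [NumberField K] [Field K'] [NumberField K']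
    [Algebra K K'] (P' : Finset (HeightOneSpectrum (𝓞 K'))) (v : HeightOneSpectrum (𝓞 K))
    (w : HeightOneSpectrum (𝓞 K')) :
    w ∈ fib981 (K := K) P' v ↔ w ∈ P' ∧ PlaceOver K K' v w :=
  Finset.mem_filter

/-- **BRIDGE T3 → T6** for a given Satake pair. -/
theorem bridge619 {K : Type} [Field K] [NumberField K] (w : HeightOneSpectrum (𝓞 K))
    (f₀ : GL (Fin 2) (w.adicCompletion K) → ℂ) (A : ℤ × ℤ → ℂ) (hA : T3.AS.IsSymFin A)
    (hp : T3.AS.IsSatakePair w f₀ A) :
    ∃ F : (ℤ × ℤ) →₀ ℂ, IsSphFn893 f₀ F ∧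
      ∀ x y : ℂ, x ≠ 0 → y ≠ 0 →
        satT893 (Ideal.absNorm w.asIdeal) F x y = T3.AS.laurent A x y := by
  obtain ⟨φ, hφ, hf, -⟩ := T3.H681.bc_pair_of_biinv681 (K := K) (K' := K) w w 1 one_pos
    (pow_one _).symm f₀ A hA.1 hp.bi_inv hp.fin_supp hp.eigen
  refine ⟨φ, ⟨hφ, fun x => congrFun hf x⟩, fun x y hx hy => ?_⟩
  have he : T3.AS.HasSatakeEigen w (fun g => φ (T6.cartan g)) A := hf ▸ hp.eigen
  exact T3.H681.sph_sum_eq_laurent681 w φ hφ A he x y hx hy

/-- The Satake transform of the unit. -/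
theorem satT_unit619 (q : ℕ) (x y : ℂ) :
    satT893 q (Finsupp.single ((0 : ℤ), (0 : ℤ)) (1 : ℂ)) x y = 1 := by
  show (Finsupp.single ((0 : ℤ), (0 : ℤ)) (1 : ℂ)).sum
    (fun lam c => c * T6.satake q lam x y) = 1
  rw [Finsupp.sum_single_index (by rw [zero_mul])]
  show (1 : ℂ) * ((x * y) ^ (0 : ℤ) * T6.satPoly q x y ((0 : ℤ) - 0).toNat) = 1
  have h0 : T6.satPoly q x y ((0 : ℤ) - 0).toNat = 1 := rfl
  rw [h0, zpow_zero, mul_one, mul_one]

/-- **THE TOP of the cut of `DownFinC981`.** -/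
theorem downFinC_of619 (K K' : Type) [Field K] [NumberField K] [Field K'] [NumberField K']
    [Algebra K K'] (hPC : PushCalcC619 K K') : DownFinC981 K K' := by
  intro ℓ hcyc _hℓ2 _htc Φ B hB hRam 𝔫 hL T₀ n n₀ m hE P' P hP'S hP A' φ₀ hA' hpair hunit
  have hdeg : B.l = ℓ := hB.deg
  subst hdeg
  -- the push-forward
  have hpc := fun v : HeightOneSpectrum (𝓞 K) => hPC P' A' v (fun w _ => hA' w)
  -- a Satake pair for the push-forward
  have hsat : ∀ v : HeightOneSpectrum (𝓞 K), ∃ f : GL (Fin 2) (v.adicCompletion K) → ℂ,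
      T3.AS.IsSatakePair v f (pushFin981 (K := K) P' A' v) :=
    fun v => T3.H263.satakeLocC263 K v _ (hpc v).1
  choose g hg using hsat
  -- `P` and `T₀` are disjoint
  have hdisj : ∀ v ∈ P, v ∉ T₀ := by
    intro v hv hvT
    obtain ⟨w₀, hw₀, hov⟩ := (hP v).1 hv
    apply hP'S w₀ hw₀
    rw [hL.mem_S'_g, Ideal.dvd_iff_le]
    have h1 : 𝔫 ≤ v.asIdeal := Ideal.dvd_iff_le.1 ((hE.mem_T₀ v).1 hvT)
    show Ideal.map (algebraMap (𝓞 K) (𝓞 K')) 𝔫 ≤ w₀.asIdeal
    rw [Ideal.map_le_iff_le_comap]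
    intro x hx
    rw [Ideal.mem_comap]
    exact (hov x (algebraMap (𝓞 K) (𝓞 K') x) rfl).1 (h1 hx)
  -- the bridge upstairs
  have hup : ∀ w ∈ P', ∃ F : (ℤ × ℤ) →₀ ℂ, IsSphFn893 (φ₀ w) F ∧
      ∀ x y : ℂ, x ≠ 0 → y ≠ 0 →
        satT893 (Ideal.absNorm w.asIdeal) F x y = T3.AS.laurent (A' w) x y :=
    fun w hw => bridge619 w (φ₀ w) (A' w) (hA' w) (hpair w hw)
  refine ⟨fun v => pushFin981 (K := K) P' A' v,
    fun v => if v ∈ T₀ then unitFn893 (m v) else g v, fun v => (hpc v).1, fun v _ => rfl,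
    ?_, ?_, ?_⟩
  · intro v hv
    show T3.AS.IsSatakePair v (if v ∈ T₀ then unitFn893 (m v) else g v) _
    rw [if_neg (hdisj v hv)]
    exact hg v
  · intro v hv
    show (if v ∈ T₀ then unitFn893 (m v) else g v) = _
    rw [if_pos hv]
  · intro v hv hvT₀
    have hvP : v ∈ P := by
      rcases Finset.mem_union.1 hv with h | h
      · exact absurd h hvT₀
      · exact h
    -- the places over `v`
    have key : ∀ w : HeightOneSpectrum (𝓞 K'), PlaceOver K K' v w →
        ∃ f : ℕ, HasResDeg K K' v w f ∧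
          ((∀ w' : HeightOneSpectrum (𝓞 K'), PlaceOver K K' v w' → w' = w) → f = B.l) ∧
          ∀ u : ℕ → HeightOneSpectrum (𝓞 K'), (∀ j : ℕ, PlaceOver K K' v (u j)) →
            (∀ j j' : ℕ, j < B.l → j' < B.l → u j = u j' → j = j') →
            f = 1 ∧ ∃ j : ℕ, j < B.l ∧ u j = w := by
      intro w how
      have hwS : w ∉ B.S' := by
        intro hwS
        obtain ⟨w₀, hw₀, hov⟩ := (hP v).1 hvP
        exact hP'S w₀ hw₀ (hB.fibre v w w₀ how hov hwS)
      obtain ⟨v', f, -, hres, huniq, -, hun⟩ := H963.placesC963 K K' B.l hcyc w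
      have hv' : v = v' := huniq v how
      subst hv'
      obtain ⟨h1, h2⟩ := hun (hRam v w how hwS)
      exact ⟨f, hres, h1, h2⟩
    let Aup : HeightOneSpectrum (𝓞 K') → (ℤ × ℤ) →₀ ℂ := fun w =>
      if hw : w ∈ P' then (hup w hw).choose else Finsupp.single ((0 : ℤ), (0 : ℤ)) (1 : ℂ)
    have hAup_pos : ∀ w (hw : w ∈ P'), Aup w = (hup w hw).choose := fun w hw => dif_pos hw
    have hAup_neg : ∀ w, w ∉ P' → Aup w = Finsupp.single ((0 : ℤ), (0 : ℤ)) (1 : ℂ) :=
      fun w hw => dif_neg hw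
    obtain ⟨Av, hAv, hAvs⟩ := bridge619 v (g v) _ (hpc v).1 (hg v)
    refine ⟨Aup, Av, ?_, ?_, ?_, ?_⟩
    · show IsSphFn893 (if v ∈ T₀ then unitFn893 (m v) else g v) Av
      rw [if_neg hvT₀]
      exact hAv
    · intro w how
      by_cases hw : w ∈ P'
      · rw [hAup_pos w hw]
        exact (hup w hw).choose_spec.1
      · rw [hAup_neg w hw, hunit w hw ⟨v, hvP, how⟩]
        exact H619.unitSphC619 _
    · -- the inert clause
      intro w how honly x y hx hy
      obtain ⟨w₀, hw₀, hov⟩ := (hP v).1 hvP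
      have hw₀w : w₀ = w := honly w₀ hov
      subst hw₀w
      obtain ⟨f, hres, hf, -⟩ := key w₀ how
      have hfl : f = B.l := hf honly
      have hfib : fib981 (K := K) P' v = {w₀} := by
        ext w'
        rw [mem_fib619, Finset.mem_singleton]
        constructor
        · rintro ⟨-, h⟩
          exact honly w' h
        · rintro rfl
          exact ⟨hw₀, how⟩
      have e1 := hAvs x y hx hy
      have e2 := (hpc v).2 x y hx hy
      rw [hfib, Finset.prod_singleton, resDeg_eq619 v w₀ f hres] at e2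
      have e3 : satT893 (Ideal.absNorm w₀.asIdeal) (Aup w₀) (x ^ f) (y ^ f)
          = T3.AS.laurent (A' w₀) (x ^ f) (y ^ f) := by
        rw [hAup_pos w₀ hw₀]
        exact (hup w₀ hw₀).choose_spec.2 (x ^ f) (y ^ f) (pow_ne_zero _ hx) (pow_ne_zero _ hy)
      rw [hres.2, hfl] at e3
      rw [hfl] at e2
      show satT893 (Ideal.absNorm v.asIdeal) Av x y
        = satT893 (Ideal.absNorm v.asIdeal ^ B.l) (Aup w₀) (x ^ B.l) (y ^ B.l)
      rw [e1, e2, e3]
    · -- the split clause
      intro u hu hinj x y hx hy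
      have hfib : fib981 (K := K) P' v
          = ((Finset.range B.l).filter (fun j => u j ∈ P')).image u := by
        ext w
        rw [mem_fib619, Finset.mem_image]
        constructor
        · rintro ⟨hwP', how⟩
          obtain ⟨f, -, -, h3⟩ := key w how
          obtain ⟨-, j, hj, rfl⟩ := h3 u hu hinj
          exact ⟨j, Finset.mem_filter.2 ⟨Finset.mem_range.2 hj, hwP'⟩, rfl⟩
        · rintro ⟨j, hj, rfl⟩
          exact ⟨(Finset.mem_filter.1 hj).2, hu j⟩
      have hinj' : ∀ j ∈ (Finset.range B.l).filter (fun j => u j ∈ P'),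
          ∀ j' ∈ (Finset.range B.l).filter (fun j => u j ∈ P'), u j = u j' → j = j' := by
        intro j hj j' hj' h
        exact hinj j j' (Finset.mem_range.1 (Finset.mem_filter.1 hj).1)
          (Finset.mem_range.1 (Finset.mem_filter.1 hj').1) h
      rw [hAvs x y hx hy, (hpc v).2 x y hx hy, hfib, Finset.prod_image hinj',
        Finset.prod_filter]
      refine Finset.prod_congr rfl fun j hj => ?_
      obtain ⟨f, hres, -, h3⟩ := key (u j) (hu j)
      obtain ⟨hf1, -⟩ := h3 u hu hinj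
      subst hf1
      by_cases hjP : u j ∈ P'
      · rw [if_pos hjP, resDeg_eq619 v (u j) 1 hres, pow_one, pow_one]
        have e3 : satT893 (Ideal.absNorm (u j).asIdeal) (Aup (u j)) x y
            = T3.AS.laurent (A' (u j)) x y := by
          rw [hAup_pos (u j) hjP]
          exact (hup (u j) hjP).choose_spec.2 x y hx hy
        rw [hres.2, pow_one] at e3
        exact e3.symm
      · rw [if_neg hjP, hAup_neg (u j) hjP, satT_unit619]

end Fermat.Agent.LT.T7.B981.DF619

end
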