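import Mathlib
import Fermat.Agent.LT.T7.H717.PushCalc
import Fermat.Agent.LT.T7.B981.H619.DownFinTop

/-!
# Row LT, tower T7, node T7.L2.1.H2a.A.0.D.3 `B981.DownFinC981` (owner helper619, registry 2981):
# CLOSED, UNCONDITIONAL

OFF-MAIN.  ADDITIVE.  Nothing assumed.

    downFinC619 (K K') : B981.DownFinC981 K K'                                  (VERBATIM)

The top `downFinC_of619` (`DownFinTop.lean`) with the ONE leaf of the cut,
`DF619.PushCalcC619`, proved by helper717 (`T7/H717/PushCalc.lean`, `pushCalcC717`, the first
compiled proof of registry row 3037; byte-identical copy).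
-/

set_option autoImplicit false

open IsDedekindDomain NumberField

namespace Fermat.Agent.LT.T7.B981.DF619

open Fermat.Agent.LT Fermat.Agent.LT.T7 Fermat.Agent.LT.T7.B981

/-- **NODE D.3 `DownFinC981`, CLOSED.** -/
theorem downFinC619 (K K' : Type) [Field K] [NumberField K] [Field K'] [NumberField K']
    [Algebra K K'] : DownFinC981 K K' :=
  downFinC_of619 K K' (H717.pushCalcC717 K K')

end Fermat.Agent.LT.T7.B981.DF619
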